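import Mathlib.NumberTheory.FLT.MasonStothers
import Mathlib.RingTheory.Polynomial.Radical
import Mathlib.Tactic

/-!
# Davenport's theorem on `f³ - g²`

With `D = gcd (f³, g²)` the theorem of Mason and Stothers applies to the three quotients, whose
radicals have degrees at most those of `f`, `g` and `(f³ - g²) / D`.
-/

set_option autoImplicit false

noncomputable section

open Polynomial UniqueFactorizationMonoid

namespace FA.DavenportPolynomial

variable {k : Type*} [Field k] [CharZero k]

theorem davenport {f g : k[X]} (hf : f.natDegree ≠ 0) (h : f ^ 3 ≠ g ^ 2) :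
    f.natDegree + 2 ≤ 2 * (f ^ 3 - g ^ 2).natDegree := by
  classical
  rcases lt_trichotomy (g ^ 2).natDegree (f ^ 3).natDegree with hlt | heq | hgt
  · rw [natDegree_sub_eq_left_of_natDegree_lt hlt, natDegree_pow]
    omega
  swap
  · rw [natDegree_sub_eq_right_of_natDegree_lt hgt]
    rw [natDegree_pow, natDegree_pow] at hgt
    rw [natDegree_pow]
    omega
  have hd : 2 * g.natDegree = 3 * f.natDegree := by rwa [natDegree_pow, natDegree_pow] at heq
  have hf0 : f ≠ 0 := fun e => hf (by rw [e, natDegree_zero])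
  have hg0 : g ≠ 0 := fun e => by rw [e, natDegree_zero] at hd; omega
  set D := EuclideanDomain.gcd (f ^ 3) (g ^ 2)
  have hD0 : D ≠ 0 := fun e => pow_ne_zero 3 hf0 (EuclideanDomain.gcd_eq_zero_iff.1 e).1
  obtain ⟨a, ha⟩ := EuclideanDomain.gcd_dvd_left (f ^ 3) (g ^ 2)
  obtain ⟨b, hb⟩ := EuclideanDomain.gcd_dvd_right (f ^ 3) (g ^ 2)
  have hab : IsCoprime a b := by
    refine ⟨EuclideanDomain.gcdA (f ^ 3) (g ^ 2), EuclideanDomain.gcdB (f ^ 3) (g ^ 2),
      mul_left_cancel₀ hD0 ?_⟩
    linear_combination -(EuclideanDomain.gcd_eq_gcd_ab (f ^ 3) (g ^ 2)) -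
      EuclideanDomain.gcdA (f ^ 3) (g ^ 2) * ha - EuclideanDomain.gcdB (f ^ 3) (g ^ 2) * hb
  change f ^ 3 = D * a at ha
  change g ^ 2 = D * b at hb
  clear_value D
  have ha0 : a ≠ 0 := fun e => pow_ne_zero 3 hf0 (by rw [ha, e, mul_zero])
  have hb0 : b ≠ 0 := fun e => pow_ne_zero 2 hg0 (by rw [hb, e, mul_zero])
  have hc0 : b - a ≠ 0 := fun e => h (by rw [ha, hb, sub_eq_zero.1 e])
  have hl : (f ^ 3 - g ^ 2).natDegree = D.natDegree + (b - a).natDegree := by
    rw [show f ^ 3 - g ^ 2 = -(D * (b - a)) by rw [ha, hb]; ring, natDegree_neg,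
      natDegree_mul hD0 hc0]
  have hla : D.natDegree + a.natDegree = 3 * f.natDegree := by
    rw [← natDegree_mul hD0 ha0, ← ha, natDegree_pow]
  rcases Polynomial.abc (b := -b) (c := b - a) ha0 (neg_ne_zero.2 hb0) hc0 hab.neg_right
    (by ring) with ⟨hA, -, -⟩ | ⟨hA, hB, -⟩
  · have hra : (radical a).natDegree ≤ f.natDegree := by
      refine (natDegree_le_of_dvd ((radical_dvd_radical (Dvd.intro_left _ ha.symm)
        (pow_ne_zero 3 hf0)).trans radical_pow_dvd) radical_ne_zero).trans natDegree_radical_le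
    have hrb : (radical (-b)).natDegree ≤ g.natDegree := by
      rw [UniqueFactorizationDomain.radical_neg]
      refine (natDegree_le_of_dvd ((radical_dvd_radical (Dvd.intro_left _ hb.symm)
        (pow_ne_zero 2 hg0)).trans radical_pow_dvd) radical_ne_zero).trans natDegree_radical_le
    have hab0 : radical a * radical (-b) ≠ 0 := mul_ne_zero radical_ne_zero radical_ne_zero
    have hrad : (radical (a * -b * (b - a))).natDegree ≤
        f.natDegree + g.natDegree + (b - a).natDegree := by
      refine (natDegree_le_of_dvd (radical_mul_dvd.trans (mul_dvd_mul_right radical_mul_dvd _))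
        (mul_ne_zero hab0 radical_ne_zero)).trans ?_
      rw [natDegree_mul hab0 radical_ne_zero, natDegree_mul radical_ne_zero radical_ne_zero]
      exact add_le_add (add_le_add hra hrb) natDegree_radical_le
    omega
  · rw [derivative_neg, neg_eq_zero] at hB
    have := derivative_eq_zero.1 hA
    have := derivative_eq_zero.1 hB
    omega

end FA.DavenportPolynomial

end
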